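import Mathlib.Data.Finset.Sort
import Mathlib.Data.Fintype.Perm
import Mathlib.Data.Fintype.Powerset
import Mathlib.SetTheory.Cardinal.Finite

/-!
# Permutations without long decreasing subsequences

Colour a position by the length of the longest decreasing subsequence ending there. Each colour
class increases, so a permutation is determined by the colours of positions and of values.
-/

set_option autoImplicit false

noncomputable section

namespace FA.Regev

open Equiv

variable {n : ℕ}

/-- No decreasing subsequence has length `d`. -/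
def NoDec (d : ℕ) (σ : Perm (Fin n)) : Prop :=
  ∀ g : Fin d → Fin n, StrictMono g → ¬StrictAnti (σ ∘ g)

/-- The decreasing subsequences ending at a position. -/
def decEndingAt (σ : Perm (Fin n)) (i : Fin n) : Finset (Finset (Fin n)) :=
  Finset.univ.filter fun s => i ∈ s ∧ ∀ a ∈ s, a ≤ i ∧ ∀ b ∈ s, a < b → σ b < σ a

/-- The length of a longest decreasing subsequence ending at a position. -/
def decLen (σ : Perm (Fin n)) (i : Fin n) : ℕ := (decEndingAt σ i).sup Finset.card

theorem exists_decLen (σ : Perm (Fin n)) (i : Fin n) :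
    ∃ s ∈ decEndingAt σ i, s.card = decLen σ i := by
  obtain ⟨s, hs, h⟩ := Finset.exists_mem_eq_sup (decEndingAt σ i) ⟨{i}, by simp [decEndingAt]⟩
    Finset.card
  exact ⟨s, hs, h.symm⟩

theorem decLen_pos (σ : Perm (Fin n)) (i : Fin n) : 0 < decLen σ i := by
  have h : ({i} : Finset (Fin n)) ∈ decEndingAt σ i := by simp [decEndingAt]
  exact lt_of_lt_of_le (Finset.singleton_nonempty i).card_pos (Finset.le_sup (f := Finset.card) h)

theorem decLen_lt {σ : Perm (Fin n)} {i j : Fin n} (hij : i < j) (h : σ j < σ i) :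
    decLen σ i < decLen σ j := by
  obtain ⟨s, hs, he⟩ := exists_decLen σ i
  simp only [decEndingAt, Finset.mem_filter, Finset.mem_univ, true_and] at hs
  have hj : j ∉ s := fun hj => absurd (hs.2 j hj).1 (not_le.2 hij)
  have hs' : insert j s ∈ decEndingAt σ j := by
    simp only [decEndingAt, Finset.mem_filter, Finset.mem_univ, true_and]
    refine ⟨Finset.mem_insert_self _ _, fun a hains => ?_⟩
    rcases Finset.mem_insert.1 hains with rfl | ha
    · refine ⟨le_rfl, fun b hb hab => ?_⟩
      rcases Finset.mem_insert.1 hb with rfl | hb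
      · exact absurd hab (lt_irrefl _)
      · exact absurd hab (not_lt.2 ((hs.2 b hb).1.trans hij.le))
    · refine ⟨(hs.2 a ha).1.trans hij.le, fun b hb hab => ?_⟩
      rcases Finset.mem_insert.1 hb with rfl | hb
      · rcases (hs.2 a ha).1.eq_or_lt with rfl | hai
        · exact h
        · exact h.trans ((hs.2 a ha).2 i hs.1 hai)
      · exact (hs.2 a ha).2 b hb hab
  rw [← he]
  exact lt_of_lt_of_le (by rw [Finset.card_insert_of_notMem hj]; omega)
    (Finset.le_sup (f := Finset.card) hs')

theorem decLen_lt_of_noDec {d : ℕ} {σ : Perm (Fin n)} (h : NoDec d σ) (i : Fin n) :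
    decLen σ i < d := by
  by_contra hle
  obtain ⟨s, hs, he⟩ := exists_decLen σ i
  obtain ⟨t, hts, ht⟩ := Finset.exists_subset_card_eq (show d ≤ s.card by omega)
  simp only [decEndingAt, Finset.mem_filter, Finset.mem_univ, true_and] at hs
  refine h (t.orderEmbOfFin ht) (t.orderEmbOfFin ht).strictMono fun a b hab => ?_
  exact (hs.2 _ (hts (t.orderEmbOfFin_mem ht a))).2 _ (hts (t.orderEmbOfFin_mem ht b))
    ((t.orderEmbOfFin ht).strictMono hab)

theorem le_of_colours {σ ρ : Perm (Fin n)} (h1 : ∀ j, decLen σ j = decLen ρ j)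
    (h2 : ∀ v, decLen σ (σ.symm v) = decLen ρ (ρ.symm v)) {i : Fin n}
    (ih : ∀ j < i, σ j = ρ j) : ρ i ≤ σ i := by
  set j := ρ.symm (σ i) with hj
  have hc : decLen ρ j = decLen ρ i := by rw [hj, ← h2, σ.symm_apply_apply, h1]
  rcases lt_trichotomy j i with hlt | heq | hgt
  · have := ih j hlt
    rw [hj, ρ.apply_symm_apply, ← hj] at this
    exact absurd (σ.injective this) hlt.ne
  · rw [← ρ.apply_symm_apply (σ i), ← hj, heq]
  · rw [← ρ.apply_symm_apply (σ i), ← hj]
    by_contra hcon
    exact (decLen_lt hgt (not_le.1 hcon)).ne hc.symm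

theorem eq_of_colours {σ ρ : Perm (Fin n)} (h1 : ∀ j, decLen σ j = decLen ρ j)
    (h2 : ∀ v, decLen σ (σ.symm v) = decLen ρ (ρ.symm v)) : σ = ρ := by
  refine Equiv.ext fun i => ?_
  induction i using WellFoundedLT.induction with
  | ind i ih =>
    exact le_antisymm (le_of_colours (fun j => (h1 j).symm) (fun v => (h2 v).symm)
      fun j hj => (ih j hj).symm) (le_of_colours h1 h2 ih)

/-- **Latyshev's count.** -/
theorem natCard_noDec_le (d n : ℕ) :
    Nat.card {σ : Perm (Fin n) // NoDec d σ} ≤ (d - 1) ^ (2 * n) := by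
  let col : {σ : Perm (Fin n) // NoDec d σ} → Fin n → Fin (d - 1) := fun σ i =>
    ⟨decLen σ.1 i - 1, by have := decLen_pos σ.1 i; have := decLen_lt_of_noDec σ.2 i; omega⟩
  let F : {σ : Perm (Fin n) // NoDec d σ} → (Fin n → Fin (d - 1)) × (Fin n → Fin (d - 1)) :=
    fun σ => (col σ, fun v => col σ (σ.1.symm v))
  have hF : Function.Injective F := fun σ ρ h => by
    refine Subtype.ext (eq_of_colours (fun j => ?_) fun v => ?_)
    · have := congrArg Fin.val (congrFun (congrArg Prod.fst h) j)
      have := decLen_pos σ.1 j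
      have := decLen_pos ρ.1 j
      simp only [F, col] at *
      omega
    · have := congrArg Fin.val (congrFun (congrArg Prod.snd h) v)
      have := decLen_pos σ.1 (σ.1.symm v)
      have := decLen_pos ρ.1 (ρ.1.symm v)
      simp only [F, col] at *
      omega
  refine (Nat.card_le_card_of_injective F hF).trans ?_
  rw [Nat.card_prod, Nat.card_fun, Nat.card_fin, Nat.card_fin, ← pow_add, two_mul]

end FA.Regev
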