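import Fermat.Agent.Regev.Count
import Mathlib.Data.List.Lex
import Mathlib.Data.List.FinRange
import Mathlib.Data.List.NodupEquivFin
import Mathlib.LinearAlgebra.Dimension.Constructions
import Mathlib.LinearAlgebra.Dimension.Finite
import Mathlib.LinearAlgebra.Multilinear.Basic
import Mathlib.LinearAlgebra.TensorProduct.Finiteness
import Mathlib.RingTheory.TensorProduct.Basic

/-!
# Regev's theorem

With an identity of degree `d` a product along a permutation with a decreasing subsequence of
length `d` is a combination of lexicographically smaller ones. So exponentially many products span,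
fewer than `n!`, and some combination vanishes on a tensor product of two such algebras.
-/

set_option autoImplicit false

noncomputable section

namespace FA.Regev

open Equiv
open scoped TensorProduct

/-- A multilinear identity. -/
def IsMultiId {K : Type*} [Field K] (A : Type*) [Ring A] [Algebra K A] {d : ℕ}
    (a : Perm (Fin d) → K) : Prop :=
  ∀ x : Fin d → A, ∑ σ : Perm (Fin d), a σ • (List.ofFn fun i => x (σ i)).prod = 0

/-! ### Words -/

theorem exists_blocks {α : Type*} {s l : List α} (h : s.Sublist l) :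
    ∃ (p : List α) (bl : List (α × List α)),
      bl.map Prod.fst = s ∧ l = p ++ (bl.map fun b => b.1 :: b.2).flatten := by
  induction h with
  | slnil => exact ⟨[], [], rfl, rfl⟩
  | cons a _ ih =>
    obtain ⟨p, bl, h1, h2⟩ := ih
    exact ⟨a :: p, bl, h1, by rw [h2]; rfl⟩
  | cons_cons a _ ih =>
    obtain ⟨p, bl, h1, h2⟩ := ih
    exact ⟨[], (a, p) :: bl, by rw [List.map_cons, h1], by
      rw [h2, List.map_cons, List.flatten_cons]; rfl⟩

theorem flatten_lt_flatten {α : Type*} [LinearOrder α] : ∀ {d : ℕ} (B B' : Fin d → α × List α)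
    (k : Fin d), (∀ i < k, B i = B' i) → (B k).1 < (B' k).1 →
    (List.ofFn fun i => (B i).1 :: (B i).2).flatten <
      (List.ofFn fun i => (B' i).1 :: (B' i).2).flatten
  | 0, _, _, k, _, _ => k.elim0
  | d + 1, B, B', k, h, hk => by
    rw [List.ofFn_succ, List.ofFn_succ, List.flatten_cons, List.flatten_cons]
    induction k using Fin.cases with
    | zero => exact List.Lex.rel hk
    | succ j =>
      rw [h 0 j.succ_pos]
      exact List.append_left_lt (flatten_lt_flatten (fun i => B i.succ) (fun i => B' i.succ) j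
        (fun i hi => h i.succ (Fin.succ_lt_succ_iff.2 hi)) hk)

theorem exists_first_moved {d : ℕ} {τ : Perm (Fin d)} (h : τ ≠ 1) :
    ∃ k, (∀ i < k, τ i = i) ∧ k < τ k := by
  obtain ⟨k, hk, hmin⟩ := Finset.exists_min_image
    (Finset.univ.filter fun i => τ i ≠ i) id (by
      obtain ⟨i, hi⟩ : ∃ i, τ i ≠ i := by
        by_contra! hc
        exact h (Equiv.ext hc)
      exact ⟨i, by simp [hi]⟩)
  simp only [Finset.mem_filter, Finset.mem_univ, true_and, id] at hk hmin
  have hfix : ∀ i < k, τ i = i := fun i hi => by_contra fun hc => (hmin i hc).not_gt hi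
  refine ⟨k, hfix, lt_of_le_of_ne (le_of_not_gt fun hlt => ?_) (Ne.symm hk)⟩
  exact hk (τ.injective (hfix _ hlt))

theorem exists_perm_ofFn {n : ℕ} {σ : Perm (Fin n)} {l : List (Fin n)}
    (h : l.Perm (List.ofFn σ)) : ∃ ρ : Perm (Fin n), List.ofFn ρ = l := by
  have hlen : l.length = n := by rw [h.length_eq, List.length_ofFn]
  have hnd : l.Nodup := h.nodup_iff.2 (List.nodup_ofFn.2 σ.injective)
  refine ⟨Equiv.ofBijective (fun i => l.get (Fin.cast hlen.symm i)) ?_, ?_⟩
  · exact Finite.injective_iff_bijective.1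
      (hnd.injective_get.comp (Fin.cast_injective _))
  · refine List.ext_get (by simp [hlen]) fun i h1 h2 => ?_
    simp

theorem sublist_ofFn {α : Type*} {d n : ℕ} (f : Fin n → α) {g : Fin d → Fin n}
    (hg : StrictMono g) : (List.ofFn (f ∘ g)).Sublist (List.ofFn f) := by
  rw [List.sublist_iff_exists_fin_orderEmbedding_get_eq]
  refine ⟨OrderEmbedding.ofStrictMono
    (fun i => Fin.cast List.length_ofFn.symm (g (Fin.cast List.length_ofFn i))) ?_, fun i => ?_⟩
  · exact fun i j hij =>
      hg (show Fin.cast List.length_ofFn i < Fin.cast List.length_ofFn j from hij)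
  · simp only [List.get_ofFn, Function.comp_apply]
    rfl

/-! ### The span of the products -/

variable {K : Type*} [Field K] {A : Type*} [Ring A] [Algebra K A]

/-- The product along a permutation. -/
def permProd (A : Type*) [Ring A] {n : ℕ} (σ : Perm (Fin n)) : (Fin n → A) → A :=
  fun x => (List.ofFn fun i => x (σ i)).prod

omit [Algebra K A] in
theorem permProd_apply {n : ℕ} (σ : Perm (Fin n)) (x : Fin n → A) :
    permProd A σ x = ((List.ofFn σ).map x).prod := by
  rw [List.map_ofFn]
  rfl

variable {d : ℕ} {a : Perm (Fin d) → K}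

theorem rearrange (hA : IsMultiId A a) {τ₀ : Perm (Fin d)} (h₀ : a τ₀ ≠ 0) (y : Fin d → A) :
    (List.ofFn y).prod = ∑ τ ∈ Finset.univ.erase 1,
      (-(a (τ₀ * τ) / a τ₀)) • (List.ofFn fun i => y (τ i)).prod := by
  have h := hA fun i => y (τ₀⁻¹ i)
  rw [← Equiv.sum_comp (Equiv.mulLeft τ₀)] at h
  simp only [Equiv.coe_mulLeft, Perm.mul_apply, Perm.inv_def, Equiv.symm_apply_apply] at h
  rw [← Finset.add_sum_erase _ _ (Finset.mem_univ 1), mul_one] at h
  simp only [Perm.one_apply] at h
  have h' : a τ₀ • ((List.ofFn y).prod - ∑ τ ∈ Finset.univ.erase 1,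
      (-(a (τ₀ * τ) / a τ₀)) • (List.ofFn fun i => y (τ i)).prod) = 0 := by
    rw [smul_sub, Finset.smul_sum, Finset.sum_congr rfl fun τ _ => by
      rw [smul_smul, mul_neg, mul_div_cancel₀ _ h₀, neg_smul], Finset.sum_neg_distrib,
      sub_neg_eq_add]
    exact h
  exact sub_eq_zero.1 ((smul_eq_zero.1 h').resolve_left h₀)

/-- **Products along good permutations span.** -/
theorem permProd_mem_span (hA : IsMultiId A a) (ha : a ≠ 0) {n : ℕ} (σ : Perm (Fin n)) :
    permProd A σ ∈
      Submodule.span K (Set.range fun ρ : {ρ : Perm (Fin n) // NoDec d ρ} => permProd A ρ.1) := by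
  classical
  obtain ⟨τ₀, h₀⟩ := Function.ne_iff.1 ha
  set S := Submodule.span K
    (Set.range fun ρ : {ρ : Perm (Fin n) // NoDec d ρ} => permProd A ρ.1) with hS
  by_contra hσ
  obtain ⟨σ, hσ, hmin⟩ := Finset.exists_min_image
    (Finset.univ.filter fun ρ : Perm (Fin n) => permProd A ρ ∉ S) (fun ρ => List.ofFn ρ)
    ⟨σ, by simp [hσ]⟩
  simp only [Finset.mem_filter, Finset.mem_univ, true_and] at hσ hmin
  by_cases hgood : NoDec d σ
  · exact hσ (Submodule.subset_span ⟨⟨σ, hgood⟩, rfl⟩)
  · simp only [NoDec, not_forall, not_not] at hgood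
    obtain ⟨g, hg, hanti⟩ := hgood
    obtain ⟨p, bl, h1, h2⟩ := exists_blocks (sublist_ofFn σ hg)
    obtain rfl : d = bl.length := by
      rw [← List.length_map (f := Prod.fst) (as := bl), h1, List.length_ofFn]
    have hfst : (fun i => (bl.get i).1) = σ ∘ g := List.ofFn_injective <| by
      rw [← h1]
      conv_rhs => rw [← List.ofFn_get bl]
      rw [List.map_ofFn]
      rfl
    set w : Perm (Fin bl.length) → List (Fin n) := fun τ =>
      p ++ (List.ofFn fun i => (bl.get (τ i)).1 :: (bl.get (τ i)).2).flatten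
    have hw1 : w 1 = List.ofFn σ := by
      rw [h2]
      simp only [w, Perm.one_apply]
      conv_rhs => rw [← List.ofFn_get bl]
      rw [List.map_ofFn]
      rfl
    have hperm : ∀ τ, (w τ).Perm (List.ofFn σ) := fun τ => by
      rw [← hw1]
      refine List.Perm.append_left p (List.Perm.flatten ?_)
      exact Equiv.Perm.ofFn_comp_perm τ fun i => (bl.get i).1 :: (bl.get i).2
    choose ρ hρ using fun τ => exists_perm_ofFn (hperm τ)
    have hlt : ∀ τ, τ ≠ 1 → permProd A (ρ τ) ∈ S := fun τ hτ => by
      by_contra hc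
      refine (hmin (ρ τ) hc).not_gt ?_
      rw [hρ, ← hw1]
      obtain ⟨k, hfix, hk⟩ := exists_first_moved hτ
      refine List.append_left_lt (flatten_lt_flatten _ _ k (fun i hi => ?_) ?_)
      · rw [hfix i hi]; rfl
      · show (bl.get (τ k)).1 < (bl.get k).1
        rw [congrFun hfst, congrFun hfst]
        exact hanti hk
    have key : ∀ (τ : Perm (Fin bl.length)) (x : Fin n → A), ((w τ).map x).prod = (p.map x).prod *
        (List.ofFn fun i => (((bl.get (τ i)).1 :: (bl.get (τ i)).2).map x).prod).prod := by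
      intro τ x
      simp only [w, List.map_append, List.prod_append, List.map_flatten, List.prod_flatten,
        List.map_ofFn]
      rfl
    refine hσ ?_
    have he : permProd A σ = ∑ τ ∈ Finset.univ.erase 1,
        (-(a (τ₀ * τ) / a τ₀)) • permProd A (ρ τ) := by
      funext x
      rw [Finset.sum_apply, permProd_apply, ← hw1, key]
      simp only [Perm.one_apply]
      rw [rearrange hA h₀, Finset.mul_sum]
      refine Finset.sum_congr rfl fun τ _ => ?_
      rw [Pi.smul_apply, permProd_apply, hρ, key, mul_smul_comm]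
    rw [he]
    exact sum_mem fun τ hτ => S.smul_mem _ (hlt τ (Finset.ne_of_mem_erase hτ))

/-- **The codimensions grow exponentially.** -/
theorem finrank_span_permProd_le (hA : IsMultiId A a) (ha : a ≠ 0) (n : ℕ) :
    Module.Finite K (Submodule.span K (Set.range (permProd A (n := n)))) ∧
      Module.finrank K (Submodule.span K (Set.range (permProd A (n := n)))) ≤
        (d - 1) ^ (2 * n) := by
  classical
  refine ⟨Module.Finite.span_of_finite K (Set.finite_range _), ?_⟩
  have he : Submodule.span K (Set.range (permProd A (n := n))) = Submodule.span K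
      (Set.range fun ρ : {ρ : Perm (Fin n) // NoDec d ρ} => permProd A ρ.1) := by
    refine le_antisymm (Submodule.span_le.2 ?_) (Submodule.span_mono ?_)
    · rintro _ ⟨σ, rfl⟩; exact permProd_mem_span hA ha σ
    · rintro _ ⟨ρ, rfl⟩; exact ⟨ρ.1, rfl⟩
  rw [he]
  refine (finrank_range_le_card _).trans ?_
  rw [← Nat.card_eq_fintype_card]
  exact natCard_noDec_le d n

/-! ### Tensor products -/

variable {B : Type*} [Ring B] [Algebra K B]

theorem prod_tmul : ∀ {n : ℕ} (u : Fin n → A) (v : Fin n → B),
    (List.ofFn fun i => u i ⊗ₜ[K] v i).prod = (List.ofFn u).prod ⊗ₜ[K] (List.ofFn v).prod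
  | 0, _, _ => by simp [Algebra.TensorProduct.one_def]
  | n + 1, u, v => by
    rw [List.ofFn_succ, List.prod_cons, prod_tmul (fun i => u i.succ) fun i => v i.succ,
      Algebra.TensorProduct.tmul_mul_tmul, List.ofFn_succ, List.ofFn_succ, List.prod_cons,
      List.prod_cons]

/-- **Regev's theorem.** -/
theorem exists_isMultiId_tensor {e : ℕ} {b : Perm (Fin e) → K} (hA : IsMultiId A a) (ha : a ≠ 0)
    (hB : IsMultiId B b) (hb : b ≠ 0) {n : ℕ}
    (hn : ((d - 1) * (e - 1)) ^ (2 * n) < n.factorial) :
    ∃ c : Perm (Fin n) → K, c ≠ 0 ∧ IsMultiId (A ⊗[K] B) c := by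
  classical
  choose α hα using fun σ : Perm (Fin n) =>
    Submodule.mem_span_range_iff_exists_fun K |>.1 (permProd_mem_span hA ha σ)
  choose β hβ using fun σ : Perm (Fin n) =>
    Submodule.mem_span_range_iff_exists_fun K |>.1 (permProd_mem_span hB hb σ)
  set w : Perm (Fin n) →
      {ρ : Perm (Fin n) // NoDec d ρ} × {ρ : Perm (Fin n) // NoDec e ρ} → K :=
    fun σ gh => α σ gh.1 * β σ gh.2
  have hli : ¬LinearIndependent K w := fun h => by
    have := h.fintype_card_le_finrank
    rw [Module.finrank_fintype_fun_eq_card, Fintype.card_perm, Fintype.card_fin,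
      ← Nat.card_eq_fintype_card, Nat.card_prod] at this
    have h' := this.trans (Nat.mul_le_mul (natCard_noDec_le d n) (natCard_noDec_le e n))
    rw [← mul_pow] at h'
    omega
  obtain ⟨c, hc, σ₀, hσ₀⟩ := Fintype.not_linearIndependent_iff.1 hli
  refine ⟨c, fun h => hσ₀ (by rw [h]; rfl), fun z => ?_⟩
  set Φ : MultilinearMap K (fun _ : Fin n => A ⊗[K] B) (A ⊗[K] B) :=
    ∑ σ, c σ • (MultilinearMap.mkPiAlgebraFin K n (A ⊗[K] B)).domDomCongr σ
  have hΦ : ∀ z, Φ z = ∑ σ, c σ • (List.ofFn fun i => z (σ i)).prod := fun z => by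
    simp [Φ]
  have hpure : ∀ (u : Fin n → A) (v : Fin n → B), Φ (fun i => u i ⊗ₜ v i) = 0 := fun u v => by
    rw [hΦ]
    have e1 : ∀ σ, (List.ofFn fun i => u (σ i) ⊗ₜ[K] v (σ i)).prod =
        ∑ g, ∑ h, w σ (g, h) • (permProd A g.1 u ⊗ₜ[K] permProd B h.1 v) := fun σ => by
      rw [prod_tmul]
      show permProd A σ u ⊗ₜ permProd B σ v = _
      rw [← hα, ← hβ, Finset.sum_apply, Finset.sum_apply, TensorProduct.sum_tmul]
      refine Finset.sum_congr rfl fun g _ => ?_
      rw [TensorProduct.tmul_sum]
      refine Finset.sum_congr rfl fun h _ => ?_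
      rw [Pi.smul_apply, Pi.smul_apply, TensorProduct.smul_tmul', TensorProduct.tmul_smul,
        ← TensorProduct.smul_tmul', smul_smul, mul_comm]
      rfl
    simp only [e1, Finset.smul_sum, smul_smul]
    rw [Finset.sum_comm]
    refine Finset.sum_eq_zero fun g _ => ?_
    rw [Finset.sum_comm]
    refine Finset.sum_eq_zero fun h _ => ?_
    rw [← Finset.sum_smul]
    have := congrFun hc (g, h)
    simp only [Finset.sum_apply, Pi.smul_apply, smul_eq_mul, Pi.zero_apply] at this
    rw [this, zero_smul]
  choose S hS using fun i => TensorProduct.exists_finset (z i)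
  rw [← hΦ, show z = fun i => ∑ j ∈ S i, j.1 ⊗ₜ[K] j.2 from funext hS,
    MultilinearMap.map_sum_finset]
  exact Finset.sum_eq_zero fun r _ => hpure _ _

end FA.Regev
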